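import Fermat.Agent.AndersonModel.Continuity
import Fermat.Agent.LePage.Ergodicity

/-!
# Blocks of transfer matrices as functions of the energy

All energies of a bounded interval share one integrable bound, so the exponential moment of the
factor of the distance over a block is continuous in the energy and the two directions.
-/

set_option autoImplicit false

noncomputable section

namespace FA.AndersonHolder

open MeasureTheory Filter Topology Module Set Metric
open FA.FurstenbergLyapunov FA.FurstenbergKifer FA.GuivarchRaugi FA.LePage FA.AndersonModel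
open scoped ENNReal

/-- The product of the transfer matrices at the energy `e` of the potentials `x`. -/
def transferProd (e : ℝ) (n : ℕ) (x : ℕ → ℝ) : Plane →L[ℝ] Plane :=
  randProd n fun i => transfer e (x i)

/-- A bound of the products at all energies with `|e| ≤ R`. -/
def blockBound (R : ℝ) : ℕ → (ℕ → ℝ) → ℝ
  | 0, _ => 1
  | n + 1, x => blockBound R n (shift x) * (|R| + 2 + |x 0|)

theorem transferProd_mem_unitDet (e : ℝ) (n : ℕ) (x : ℕ → ℝ) :
    transferProd e n x ∈ unitDet Plane :=
  randProd_mem_unitDet (fun i => transfer_mem_unitDet e (x i)) n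

theorem blockBound_pos (R : ℝ) (n : ℕ) (x : ℕ → ℝ) : 0 < blockBound R n x := by
  induction n generalizing x with
  | zero => exact one_pos
  | succ n ih => exact mul_pos (ih _) (by positivity)

theorem norm_transferProd_le {R e : ℝ} (he : |e| ≤ R) (n : ℕ) (x : ℕ → ℝ) :
    ‖transferProd e n x‖ ≤ blockBound R n x := by
  induction n generalizing x with
  | zero =>
    refine ContinuousLinearMap.opNorm_le_bound _ zero_le_one fun w => ?_
    simp [transferProd, randProd, FA.Kingman.cocycleProd, blockBound]
  | succ n ih =>
    rw [transferProd, randProd_succ]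
    refine (norm_mul_le _ _).trans (mul_le_mul (ih (shift x))
      ((norm_transfer_le e (x 0)).trans (by linarith [le_abs_self R])) (norm_nonneg _)
      (blockBound_pos R n _).le)

theorem continuous_transferProd (n : ℕ) (x : ℕ → ℝ) :
    Continuous fun e => transferProd e n x := by
  induction n generalizing x with
  | zero => exact continuous_const
  | succ n ih =>
    simp only [transferProd, randProd_succ]
    exact ((ih (shift x)).mul (continuous_transfer.comp (continuous_id.prodMk continuous_const)) :)

theorem measurable_transferSeq (e : ℝ) : Measurable fun (x : ℕ → ℝ) i => transfer e (x i) :=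
  measurable_pi_lambda _ fun i => (measurable_transfer e).comp (measurable_pi_apply i)

theorem measurable_transferProd (e : ℝ) (n : ℕ) : Measurable (transferProd e n) :=
  (measurable_randProd n).comp (measurable_transferSeq e)

theorem measurable_blockBound (R : ℝ) (n : ℕ) : Measurable (blockBound R n) := by
  induction n with
  | zero => exact measurable_const
  | succ n ih =>
    exact ((ih.comp measurable_shift).mul
      ((continuous_abs.measurable.comp
      (measurable_pi_apply (X := fun _ : ℕ => ℝ) 0)).const_add _) :)

variable {ρ : Measure ℝ} [IsProbabilityMeasure ρ] {ε : ℝ}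

theorem integrable_blockBound_rpow (hε : 0 ≤ ε) (hv : Integrable (fun v : ℝ => |v| ^ ε) ρ)
    (R : ℝ) (n : ℕ) :
    Integrable (fun x => blockBound R n x ^ ε) (Measure.infinitePi fun _ : ℕ => ρ) := by
  set π := Measure.infinitePi fun _ : ℕ => ρ with hπ
  induction n with
  | zero => simp [blockBound]
  | succ n ih =>
    have hone : Integrable (fun v : ℝ => (|R| + 2 + |v|) ^ ε) ρ := by
      refine (((integrable_const ((|R| + 2) ^ ε)).add hv).const_mul (2 ^ ε)).mono'
        ((continuous_abs.measurable.const_add _).pow_const ε).aestronglyMeasurable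
        (.of_forall fun v => ?_)
      rw [Real.norm_of_nonneg (Real.rpow_nonneg (by positivity) _)]
      exact rpow_add_le_two_rpow (by positivity) (abs_nonneg v) hε
    have h1 : Integrable (fun p : ℝ × (ℕ → ℝ) => (|R| + 2 + |p.1|) ^ ε * blockBound R n p.2 ^ ε)
        (ρ.prod π) := hone.mul_prod ih
    rw [hπ, ← map_split_infinitePi ρ] at h1
    have h2 := (integrable_map_measure h1.aestronglyMeasurable
      ((measurable_pi_apply 0).prodMk measurable_shift).aemeasurable).1 h1
    refine h2.congr (.of_forall fun x => ?_)
    show (|R| + 2 + |x 0|) ^ ε * blockBound R n (shift x) ^ ε = blockBound R (n + 1) x ^ ε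
    rw [blockBound, Real.mul_rpow (blockBound_pos R n _).le (by positivity), mul_comm]

theorem infinitePi_transferLaw (e : ℝ) :
    (Measure.infinitePi fun _ : ℕ => transferLaw ρ e) =
      (Measure.infinitePi fun _ : ℕ => ρ).map fun x i => transfer e (x i) :=
  (Measure.infinitePi_map_pi (μ := fun _ : ℕ => ρ) fun _ => measurable_transfer e).symm

theorem blockLaw_transferLaw (e : ℝ) (n : ℕ) :
    blockLaw (transferLaw ρ e) n =
      (Measure.infinitePi fun _ : ℕ => ρ).map (transferProd e n) := by
  rw [blockLaw, infinitePi_transferLaw,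
    Measure.map_map (measurable_randProd n) (measurable_transferSeq e)]
  rfl

theorem continuousAt_logPair {A : Plane →L[ℝ] Plane} (hA : A ∈ unitDet Plane) :
    ContinuousAt (logPair (E := Plane)) A := by
  have hc : Continuous fun B : Plane →L[ℝ] Plane =>
      FA.Oseledets.topProd 2 (B : Plane →ₗ[ℝ] Plane) :=
    continuous_finsetProd _ fun i _ => FA.Oseledets.continuous_singularValue i
  exact hc.continuousAt.log
    (one_pos.trans_le (one_le_topProd_two (finrank_euclideanSpace_fin (n := 2)).ge hA)).ne'

theorem continuous_distFactor_transferProd (n : ℕ) (x : ℕ → ℝ) :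
    Continuous fun p : ℝ × Sph Plane × Sph Plane =>
      distFactor (transferProd p.1 n x) p.2.1 p.2.2 := by
  have hQ : Continuous fun p : ℝ × Sph Plane × Sph Plane => transferProd p.1 n x :=
    (continuous_transferProd n x).comp continuous_fst
  have hne : ∀ (p : ℝ × Sph Plane × Sph Plane) (u : Sph Plane),
      ‖transferProd p.1 n x (u : Plane)‖ ≠ 0 := fun p u =>
    norm_ne_zero_iff.2 (apply_ne_zero (transferProd_mem_unitDet p.1 n x) (sph_ne_zero u))
  refine ((continuous_iff_continuousAt.2 fun p => ?_).sub ?_).sub ?_
  · exact (continuousAt_logPair (transferProd_mem_unitDet p.1 n x)).comp_of_eq hQ.continuousAt rfl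
  · exact ((hQ.clm_apply (continuous_subtype_val.comp
      (continuous_fst.comp continuous_snd))).norm).log fun p => hne p p.2.1
  · exact ((hQ.clm_apply (continuous_subtype_val.comp
      (continuous_snd.comp continuous_snd))).norm).log fun p => hne p p.2.2

/-- The exponential moment of the factor over a block. -/
def factorMoment (ρ : Measure ℝ) (α : ℝ) (n : ℕ) (e : ℝ) (q : Sph Plane × Sph Plane) : ℝ :=
  ∫ x, Real.exp (α * distFactor (transferProd e n x) q.1 q.2)
    ∂(Measure.infinitePi fun _ : ℕ => ρ)

/-- One bound for all energies with `|e| ≤ R`. -/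
theorem exp_distFactor_le {a α b : ℝ} (hα : 0 ≤ α) (hb : 0 ≤ b) (hαb : α * b ≤ ε)
    (hX : ∀ v w : Sph Plane, ∀ A ∈ unitDet Plane, |distFactor A v w| ≤ a + b * Real.log ‖A‖)
    {R e : ℝ} (he : |e| ≤ R) (n : ℕ) (x : ℕ → ℝ) (v w : Sph Plane) :
    Real.exp (α * distFactor (transferProd e n x) v w) ≤
      Real.exp (α * a) * blockBound R n x ^ ε := by
  have hA := transferProd_mem_unitDet e n x
  have h1 := one_le_norm hA
  rw [Real.rpow_def_of_pos (blockBound_pos R n x), ← Real.exp_add]
  refine Real.exp_le_exp.2 ?_
  have e1 := mul_le_mul_of_nonneg_left ((le_abs_self _).trans (hX v w _ hA)) hα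
  have e2 := Real.log_le_log (one_pos.trans_le h1) (norm_transferProd_le he n x)
  have e3 := Real.log_nonneg h1
  have e4 := mul_le_mul_of_nonneg_left e2 (mul_nonneg hα hb)
  have e5 := mul_le_mul_of_nonneg_right hαb (e3.trans e2)
  linarith

theorem integrable_exp_distFactor {a α b : ℝ} (hε : 0 ≤ ε)
    (hv : Integrable (fun v : ℝ => |v| ^ ε) ρ)
    (hα : 0 ≤ α) (hb : 0 ≤ b) (hαb : α * b ≤ ε)
    (hX : ∀ v w : Sph Plane, ∀ A ∈ unitDet Plane, |distFactor A v w| ≤ a + b * Real.log ‖A‖)
    (e : ℝ) (n : ℕ) (v w : Sph Plane) :
    Integrable (fun x => Real.exp (α * distFactor (transferProd e n x) v w))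
      (Measure.infinitePi fun _ : ℕ => ρ) := by
  refine ((integrable_blockBound_rpow hε hv |e| n).const_mul (Real.exp (α * a))).mono'
    (Real.measurable_exp.comp (((measurable_distFactor v w).comp
      (measurable_transferProd e n)).const_mul α)).aestronglyMeasurable (.of_forall fun x => ?_)
  rw [Real.norm_of_nonneg (Real.exp_pos _).le]
  exact exp_distFactor_le hα hb hαb hX le_rfl n x v w

theorem continuous_factorMoment {a α b : ℝ} (hε : 0 ≤ ε)
    (hv : Integrable (fun v : ℝ => |v| ^ ε) ρ)
    (hα : 0 ≤ α) (hb : 0 ≤ b) (hαb : α * b ≤ ε)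
    (hX : ∀ v w : Sph Plane, ∀ A ∈ unitDet Plane, |distFactor A v w| ≤ a + b * Real.log ‖A‖)
    (n : ℕ) : Continuous fun p : ℝ × Sph Plane × Sph Plane => factorMoment ρ α n p.1 p.2 := by
  refine continuous_iff_continuousAt.2 fun p₀ => ?_
  refine continuousAt_of_dominated
    (bound := fun x => Real.exp (α * a) * blockBound (|p₀.1| + 1) n x ^ ε)
    (.of_forall fun p => (Real.measurable_exp.comp (((measurable_distFactor p.2.1 p.2.2).comp
      (measurable_transferProd p.1 n)).const_mul α)).aestronglyMeasurable) ?_
    ((integrable_blockBound_rpow hε hv _ n).const_mul _) (.of_forall fun x => ?_)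
  · filter_upwards [continuous_fst.continuousAt.preimage_mem_nhds
      (Metric.ball_mem_nhds p₀.1 one_pos)] with p hp
    refine .of_forall fun x => ?_
    rw [Real.norm_of_nonneg (Real.exp_pos _).le]
    refine exp_distFactor_le hα hb hαb hX ?_ n x _ _
    have h1 : |p.1 - p₀.1| < 1 := by simpa [Metric.mem_ball, Real.dist_eq] using hp
    linarith [abs_sub_abs_le_abs_sub p.1 p₀.1]
  · exact (Real.continuous_exp.comp
      (continuous_const.mul (continuous_distFactor_transferProd n x))).continuousAt

end FA.AndersonHolder
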