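import Fermat.Agent.AndersonHolder.Perturb

/-!
# The exponent is Hölder in the energy

Furstenberg's formula turns the difference of two exponents into the change of the mean growth in
one step and the change of a stationary mean of a Hölder function.
-/

set_option autoImplicit false

noncomputable section

namespace FA.AndersonHolder

open MeasureTheory Filter Topology Module Set Metric
open FA.FurstenbergLyapunov FA.FurstenbergKifer FA.GuivarchRaugi FA.LePage FA.AndersonModel
open scoped BoundedContinuousFunction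

variable {ρ : Measure ℝ} [IsProbabilityMeasure ρ] {ε : ℝ} {γ : ℝ → ℝ}

/-- **Local Hölder continuity.** -/
theorem exists_local_holder (hρ : ∀ a, ρ ≠ Measure.dirac a) (hε : 0 < ε)
    (hv : Integrable (fun v : ℝ => |v| ^ ε) ρ)
    (hγ : ∀ e, ∀ᵐ x ∂(Measure.infinitePi fun _ : ℕ => transferLaw ρ e),
      Tendsto (fun n : ℕ => Real.log ‖randProd n x‖ / n) atTop (𝓝 (γ e))) (e₀ : ℝ) :
    ∃ δ α C : ℝ, 0 < δ ∧ 0 < α ∧ 0 ≤ C ∧
      ∀ e ∈ ball e₀ δ, ∀ e' ∈ ball e₀ δ, |γ e - γ e'| ≤ C * |e - e'| ^ α := by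
  set d : ℝ := ((finrank ℝ Plane : ℕ) : ℝ) with hddef
  have hd0 : 0 ≤ d := Nat.cast_nonneg _
  obtain ⟨δ, α, C, r, hδ, hα, hαle, hC, hr, hr1, hc⟩ := exists_uniform_contraction hρ hε hv e₀
    (α₀ := min 1 (ε / (d + 2))) (lt_min one_pos (by positivity))
  have hα1 : α ≤ 1 := hαle.trans (min_le_left _ _)
  have hαd : α * (d + 2) ≤ ε := by
    have h := hαle.trans (min_le_right _ _)
    rwa [le_div_iff₀ (by positivity)] at h
  have hαd1 : α * (d + 1) ≤ ε := by nlinarith
  set R := |e₀| + δ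
  have hR : ∀ e ∈ ball e₀ δ, |e| ≤ R := fun e he => by
    have h1 : |e - e₀| < δ := by simpa [Metric.mem_ball, Real.dist_eq] using he
    simp only [R]
    linarith [abs_sub_abs_le_abs_sub e e₀]
  obtain ⟨K₁, hK₁0, hK₁⟩ := exists_step_perturb hα hα1 (R := R)
  obtain ⟨K₂, hK₂0, hK₂⟩ :=
    exists_stationary_holder (ρ := ρ) hε hv hα hα1 hαd1 hC hr.le hr1 (R := R)
  obtain ⟨K₃, hK₃0, hK₃⟩ := exists_log_holder (E := Plane) hα hα1
  set J := 2 ^ ε * ((|R| + 2) ^ ε + ∫ v, |v| ^ ε ∂ρ)
  have hJ : 0 ≤ J := mul_nonneg (by positivity) (add_nonneg (by positivity)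
    (integral_nonneg fun v => Real.rpow_nonneg (abs_nonneg v) _))
  refine ⟨δ, α, K₁ * J + K₃ * J * K₂, hδ, hα, by positivity, fun e he e' he' => ?_⟩
  have hint : ∀ t, Integrable (fun A => Real.log ‖A‖) (transferLaw ρ t) := fun t =>
    integrable_log_norm (transferLaw_ae ρ t) hε (transferLaw_expMoment hε.le hv)
  set g := fun t => growthOne (transferLaw_ae ρ t) (hint t) with hg
  have hgapply : ∀ t u, g t u = ∫ v, Real.log ‖transfer t v (u : Plane)‖ ∂ρ := fun t u =>
    integral_map (φ := transfer t) (f := fun A => Real.log ‖A (u : Plane)‖)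
      (measurable_transfer t).aemeasurable
      (measurable_log_apply measurable_id measurable_const).aestronglyMeasurable
  obtain ⟨ν, hν⟩ := exists_stationary (transferLaw ρ e) (transferLaw_ae ρ e)
  obtain ⟨ν', hν'⟩ := exists_stationary (transferLaw ρ e') (transferLaw_ae ρ e')
  have hform : ∀ t (η : Measure (Sph Plane)) [IsProbabilityMeasure η],
      stepLaw (transferLaw ρ t) η = η → ∫ u, g t u ∂η = γ t := fun t η _ hη => by
    simp only [hg, growthOne_apply]
    exact stationary_formula _ (transferLaw_ae ρ t) (transferLaw_irreducible hρ) (hint t) (hγ t) η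
      hη
  have hi : ∀ t (u : Sph Plane), Integrable (fun v => Real.log ‖transfer t v (u : Plane)‖) ρ :=
    fun t u => (integrable_map_measure
      (measurable_log_apply measurable_id measurable_const).aestronglyMeasurable
      (measurable_transfer t).aemeasurable).1
      (integrable_log_apply (transferLaw ρ t) (transferLaw_ae ρ t) (hint t) u)
  -- the mean growth at `e'` is Hölder in the direction
  have hgh : HolderProj (g e') (K₃ * J) α := fun a b => by
    rw [hgapply, hgapply, ← integral_sub (hi e' a) (hi e' b)]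
    refine (norm_integral_transferLaw_le hε.le hv (K := K₃ * sineDist a b ^ α) (R := R)
      (p := α * (d + 2)) (mul_nonneg hK₃0 (Real.rpow_nonneg (sineDist_nonneg a b) _)) hαd
      fun v => ?_).trans_eq (by ring)
    refine (hK₃ _ (transfer_mem_unitDet e' v) a b).trans ?_
    rw [mul_right_comm]
    refine mul_le_mul_of_nonneg_left (Real.rpow_le_rpow (norm_nonneg _)
      ((norm_transfer_le e' v).trans ?_) (by positivity))
      (mul_nonneg hK₃0 (Real.rpow_nonneg (sineDist_nonneg a b) _))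
    linarith [hR e' he', le_abs_self R]
  have h1 : |(∫ u, g e u ∂(ν : Measure (Sph Plane))) - ∫ u, g e' u ∂(ν : Measure (Sph Plane))| ≤
      K₁ * J * |e - e'| ^ α := by
    rw [← integral_sub ((g e).integrable _) ((g e').integrable _), ← Real.norm_eq_abs]
    refine (norm_integral_le_of_norm_le_const (C := K₁ * J * |e - e'| ^ α)
      (.of_forall fun u => ?_)).trans_eq (by rw [probReal_univ, mul_one])
    rw [hgapply, hgapply, ← integral_sub (hi e u) (hi e' u), Real.norm_eq_abs]
    exact (norm_integral_transferLaw_le hε.le hv (K := K₁ * |e - e'| ^ α) (R := R)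
      (by positivity) hαd1 fun v => (hK₁ e e' (hR e he) (hR e' he') v u).2).trans_eq (by ring)
  have h2 := hK₂ e e' (hR e he) (hR e' he') (hc e' he') (ν : Measure (Sph Plane))
    (ν' : Measure (Sph Plane)) inferInstance inferInstance hν hν' (g e') (K₃ * J)
    (mul_nonneg hK₃0 hJ) hgh
  rw [← hform e _ hν, ← hform e' _ hν']
  exact (abs_sub_le _ _ _).trans ((add_le_add h1 h2).trans_eq (by ring))

/-- **Hölder continuity on bounded intervals.** -/
theorem exists_holder_on (hρ : ∀ a, ρ ≠ Measure.dirac a) (hε : 0 < ε)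
    (hv : Integrable (fun v : ℝ => |v| ^ ε) ρ)
    (hγ : ∀ e, ∀ᵐ x ∂(Measure.infinitePi fun _ : ℕ => transferLaw ρ e),
      Tendsto (fun n : ℕ => Real.log ‖randProd n x‖ / n) atTop (𝓝 (γ e))) (R : ℝ) :
    ∃ α C : ℝ, 0 < α ∧ ∀ e ∈ Icc (-R) R, ∀ e' ∈ Icc (-R) R, |γ e - γ e'| ≤ C * |e - e'| ^ α := by
  choose δ α C hδ hα hC hloc using exists_local_holder hρ hε hv hγ
  obtain ⟨t, ht⟩ := (isCompact_Icc (a := -R) (b := R)).elim_finite_subcover
    (fun e₀ : ℝ => ball e₀ (δ e₀)) (fun _ => isOpen_ball)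
    fun x _ => mem_iUnion.2 ⟨x, mem_ball_self (hδ x)⟩
  rcases t.eq_empty_or_nonempty with rfl | hne
  · refine ⟨1, 0, one_pos, fun e he => ?_⟩
    simpa using ht he
  obtain ⟨η, hη, hcov⟩ := lebesgue_number_lemma_of_metric (isCompact_Icc (a := -R) (b := R))
    (c := fun e₀ : t => ball (e₀ : ℝ) (δ e₀)) (fun _ => isOpen_ball) fun x hx => by
      obtain ⟨i, hi, hxi⟩ := mem_iUnion₂.1 (ht hx)
      exact mem_iUnion.2 ⟨⟨i, hi⟩, hxi⟩
  obtain ⟨j, hj, hmin⟩ := t.exists_min_image α hne
  set α₀ := α j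
  have hα₀ : 0 < α₀ := hα j
  set η₁ := min η 1
  have hη₁ : 0 < η₁ := lt_min hη one_pos
  set S := ∑ i ∈ t, C i
  have hS : ∀ i ∈ t, C i ≤ S := fun i hi => Finset.single_le_sum (fun k _ => hC k) hi
  have hS0 : 0 ≤ S := Finset.sum_nonneg fun i _ => hC i
  have hclose : ∀ e ∈ Icc (-R) R, ∀ e' : ℝ, |e - e'| < η₁ →
      |γ e - γ e'| ≤ S * |e - e'| ^ α₀ := by
    intro e he e' hlt
    obtain ⟨⟨i, hi⟩, hsub⟩ := hcov e he
    have he'' : e' ∈ ball e η := by
      rw [Metric.mem_ball, Real.dist_eq, abs_sub_comm]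
      exact hlt.trans_le (min_le_left _ _)
    refine (hloc i e (hsub (mem_ball_self hη)) e' (hsub he'')).trans ?_
    rcases (abs_nonneg (e - e')).eq_or_lt with h0 | h0
    · rw [← h0, Real.zero_rpow (hα i).ne', Real.zero_rpow hα₀.ne', mul_zero, mul_zero]
    exact mul_le_mul (hS i hi) (Real.rpow_le_rpow_of_exponent_ge h0
      (hlt.le.trans (min_le_right _ _)) (hmin i hi)) (by positivity) hS0
  -- a bound on the interval
  have hcont : ContinuousOn γ (Icc (-R) R) := by
    rw [Metric.continuousOn_iff]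
    intro e he ε' hε'
    refine ⟨min η₁ ((ε' / (S + 1)) ^ (1 / α₀)), lt_min hη₁ (by positivity), fun e' _ hd => ?_⟩
    rw [Real.dist_eq] at hd ⊢
    rw [abs_sub_comm] at hd ⊢
    refine (hclose e he e' (hd.trans_le (min_le_left _ _))).trans_lt ?_
    have h1 : |e - e'| ^ α₀ ≤ ε' / (S + 1) := by
      refine (Real.rpow_le_rpow (abs_nonneg _) (hd.le.trans (min_le_right _ _)) hα₀.le).trans_eq ?_
      rw [← Real.rpow_mul (by positivity), one_div_mul_cancel hα₀.ne', Real.rpow_one]
    calc S * |e - e'| ^ α₀ ≤ S * (ε' / (S + 1)) := mul_le_mul_of_nonneg_left h1 hS0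
      _ < ε' := by
          rw [mul_div_assoc', div_lt_iff₀ (by linarith)]
          nlinarith
  obtain ⟨B, hB⟩ := (isCompact_Icc (a := -R) (b := R)).exists_bound_of_continuousOn hcont
  refine ⟨α₀, S + 2 * |B| / η₁ ^ α₀, hα₀, fun e he e' he' => ?_⟩
  rcases lt_or_ge |e - e'| η₁ with h | h
  · exact (hclose e he e' h).trans (mul_le_mul_of_nonneg_right
      (le_add_of_nonneg_right (by positivity)) (by positivity))
  · have h1 := hB e he
    have h2 := hB e' he'
    rw [Real.norm_eq_abs] at h1 h2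
    refine ((abs_sub _ _).trans (show |γ e| + |γ e'| ≤ 2 * |B| by
      linarith [le_abs_self B])).trans ?_
    rw [add_mul]
    refine le_trans ?_ (le_add_of_nonneg_left (mul_nonneg hS0 (by positivity)))
    rw [div_mul_eq_mul_div, le_div_iff₀ (by positivity)]
    exact mul_le_mul_of_nonneg_left (Real.rpow_le_rpow hη₁.le h hα₀.le) (by positivity)

end FA.AndersonHolder
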