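import Fermat.Agent.AndersonHolder.Uniform
import Fermat.Agent.LePage.Poisson

/-!
# Perturbing the energy

A small change of the energy moves the image of a direction, and changes its growth, by a small
power of the change, so stationary means of Hölder functions are Hölder in the energy.
-/

set_option autoImplicit false

noncomputable section

namespace FA.AndersonHolder

open MeasureTheory Filter Topology Module Set Metric
open FA.FurstenbergLyapunov FA.FurstenbergKifer FA.GuivarchRaugi FA.LePage FA.AndersonModel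
open scoped RealInnerProductSpace BoundedContinuousFunction

theorem norm_transfer_sub_le (e e' v : ℝ) (u : Sph Plane) :
    ‖transfer e v (u : Plane) - transfer e' v (u : Plane)‖ ≤ |e - e'| := by
  obtain ⟨h0, h1⟩ := transfer_apply e v (u : Plane)
  obtain ⟨g0, g1⟩ := transfer_apply e' v (u : Plane)
  refine (norm_le_abs_add _).trans ?_
  simp only [PiLp.sub_apply, h0, h1, g0, g1, sub_self, abs_zero, add_zero]
  rw [show (e - v) * (u : Plane) 0 - (u : Plane) 1 - ((e' - v) * (u : Plane) 0 - (u : Plane) 1) =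
    (e - e') * (u : Plane) 0 by ring, abs_mul]
  exact mul_le_of_le_one_right (abs_nonneg _)
    ((abs_le_norm _ 0).trans_eq (norm_eq_of_mem_sphere u))

/-- Both the direction and the growth after one step move little with the energy. -/
theorem exists_step_perturb {α : ℝ} (hα : 0 < α) (hα1 : α ≤ 1) {R : ℝ} :
    ∃ K : ℝ, 0 ≤ K ∧ ∀ e e' : ℝ, |e| ≤ R → |e'| ≤ R → ∀ (v : ℝ) (u : Sph Plane),
      sineDist (act (transfer e v) u) (act (transfer e' v) u) ^ α ≤
          K * |e - e'| ^ α * (|R| + 2 + |v|) ^ (α * (finrank ℝ Plane + 1)) ∧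
        |Real.log ‖transfer e v (u : Plane)‖ - Real.log ‖transfer e' v (u : Plane)‖| ≤
          K * |e - e'| ^ α * (|R| + 2 + |v|) ^ (α * (finrank ℝ Plane + 1)) := by
  obtain ⟨C, hC0, hC⟩ := exists_abs_log_apply_le (E := Plane)
  obtain ⟨K, hK0, hK⟩ := exists_log_pow_le (1 + 2 * C) (2 * finrank ℝ Plane) 1 hα
  refine ⟨Real.exp C ^ α * (K + 1), by positivity, fun e e' he he' v u => ?_⟩
  set d : ℝ := ((finrank ℝ Plane : ℕ) : ℝ) with hddef
  have hd0 : 0 ≤ d := Nat.cast_nonneg _
  set N := |R| + 2 + |v|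
  have hN1 : 1 ≤ N := by
    simp only [N]
    linarith [abs_nonneg R, abs_nonneg v]
  have hN0 : 0 < N := one_pos.trans_le hN1
  set Δ := |e - e'|
  have hΔ0 : 0 ≤ Δ := abs_nonneg _
  have hlog : ∀ t, |t| ≤ R →
      |Real.log ‖transfer t v (u : Plane)‖| ≤ C + d * Real.log N := fun t ht => by
    refine (hC _ (transfer_mem_unitDet t v) _ (norm_eq_of_mem_sphere u)).trans (add_le_add le_rfl
      (mul_le_mul_of_nonneg_left (Real.log_le_log
        (one_pos.trans_le (one_le_norm (transfer_mem_unitDet t v)))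
        ((norm_transfer_le t v).trans ?_)) hd0))
    simp only [N]
    linarith [le_abs_self R]
  set m := (Real.exp C)⁻¹ * N ^ (-d)
  have hm : 0 < m := by positivity
  have hlow : ∀ t, |t| ≤ R → m ≤ ‖transfer t v (u : Plane)‖ := fun t ht => by
    have h := Real.exp_le_exp.2 (abs_le.1 (hlog t ht)).1
    rw [Real.exp_log (norm_pos_iff.2 (apply_ne_zero (transfer_mem_unitDet t v)
      (sph_ne_zero u)))] at h
    refine le_of_eq_of_le ?_ h
    simp only [m]
    rw [Real.rpow_def_of_pos hN0, ← Real.exp_neg, ← Real.exp_add]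
    congr 1; ring
  have hdiff := norm_transfer_sub_le e e' v u
  set P := Δ * (Real.exp C * N ^ d)
  have hP0 : 0 ≤ P := by positivity
  have hPm : Δ / m = P := by
    simp only [P, m]
    rw [Real.rpow_neg hN0.le]
    field_simp
  have hPα : P ^ α = Δ ^ α * (Real.exp C ^ α * N ^ (α * d)) := by
    rw [Real.mul_rpow hΔ0 (by positivity), Real.mul_rpow (by positivity) (by positivity),
      ← Real.rpow_mul hN0.le, mul_comm d α]
  have hNexp : N ^ (α * d) * N ^ α = N ^ (α * (d + 1)) := by
    rw [← Real.rpow_add hN0]; ring_nf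
  have hNle : N ^ (α * d) ≤ N ^ (α * (d + 1)) :=
    Real.rpow_le_rpow_of_exponent_le hN1 (by linarith)
  have hv0 := apply_ne_zero (transfer_mem_unitDet e v) (sph_ne_zero u)
  have hw0 := apply_ne_zero (transfer_mem_unitDet e' v) (sph_ne_zero u)
  set A := transfer e v (u : Plane)
  set B := transfer e' v (u : Plane)
  constructor
  · have key : sineDist (act (transfer e v) u) (act (transfer e' v) u) ≤ P := by
      rw [sineDist, act, act, coe_dir hv0, coe_dir hw0,
        rej_smul_left (inv_ne_zero (norm_ne_zero_iff.2 hv0)), rej_smul_right, norm_smul, norm_inv,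
        norm_norm, inv_mul_eq_div, ← hPm]
      refine div_le_div₀ hΔ0 ?_ hm (hlow e' he')
      rw [show B = (1 : ℝ) • A + (B - A) by rw [one_smul, add_sub_cancel], rej_add_smul hv0]
      exact (norm_rej_le hv0 _).trans ((norm_sub_rev B A).trans_le hdiff)
    refine (Real.rpow_le_rpow (sineDist_nonneg _ _) key hα.le).trans ?_
    rw [hPα]
    calc Δ ^ α * (Real.exp C ^ α * N ^ (α * d)) ≤ Δ ^ α * (Real.exp C ^ α * N ^ (α * (d + 1))) := by
          gcongr
      _ = (Real.exp C ^ α * 1) * Δ ^ α * N ^ (α * (d + 1)) := by ring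
      _ ≤ _ := by gcongr; linarith
  · set x := |Real.log ‖A‖ - Real.log ‖B‖|
    have hxQ : x ≤ 2 * C + 2 * d * Real.log N := by
      have h1 := abs_le.1 (hlog e he)
      have h2 := abs_le.1 (hlog e' he')
      rw [abs_le]; constructor <;> linarith
    have hl : ∀ p q : ℝ, m ≤ p → m ≤ q → Real.log p - Real.log q ≤ |p - q| / m := by
      intro p q hp hq
      have hq0 := hm.trans_le hq
      rw [← Real.log_div (hm.trans_le hp).ne' hq0.ne']
      calc Real.log (p / q) ≤ p / q - 1 := Real.log_le_sub_one_of_pos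
            (div_pos (hm.trans_le hp) hq0)
        _ = (p - q) / q := by rw [sub_div, div_self hq0.ne']
        _ ≤ |p - q| / q := div_le_div_of_nonneg_right (le_abs_self _) hq0.le
        _ ≤ |p - q| / m := div_le_div_of_nonneg_left (abs_nonneg _) hm hq
    have hxP : x ≤ P := by
      rw [← hPm, abs_le, neg_le, neg_sub]
      have h3 : |‖A‖ - ‖B‖| / m ≤ Δ / m :=
        div_le_div_of_nonneg_right ((abs_norm_sub_norm_le A B).trans hdiff) hm.le
      have e1 := hl _ _ (hlow e he) (hlow e' he')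
      have e2 := hl _ _ (hlow e' he') (hlow e he)
      rw [abs_sub_comm] at e2
      exact ⟨e2.trans h3, e1.trans h3⟩
    rcases (show (0 : ℝ) ≤ x from abs_nonneg _).eq_or_lt with hx | hx
    · rw [← hx]; positivity
    calc x = x ^ α * x ^ (1 - α) := by rw [← Real.rpow_add hx]; simp
      _ ≤ P ^ α * (1 + 2 * C + 2 * d * Real.log N) := by
          refine mul_le_mul (Real.rpow_le_rpow hx.le hxP hα.le) ?_ (by positivity)
            (Real.rpow_nonneg hP0 _)
          rcases le_total x 1 with h | h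
          · have : x ^ (1 - α) ≤ 1 := Real.rpow_le_one hx.le h (by linarith)
            have := mul_nonneg (mul_nonneg two_pos.le hd0) (Real.log_nonneg hN1)
            linarith
          · have : x ^ (1 - α) ≤ x ^ (1 : ℝ) := Real.rpow_le_rpow_of_exponent_le h (by linarith)
            rw [Real.rpow_one] at this
            linarith
      _ ≤ P ^ α * ((K + 1) * N ^ α) := by
          refine mul_le_mul_of_nonneg_left ?_ (Real.rpow_nonneg hP0 _)
          refine (le_abs_self _).trans ((pow_one _).symm.trans_le ((hK N hN1).trans ?_))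
          exact mul_le_mul_of_nonneg_right (le_add_of_nonneg_right zero_le_one) (by positivity)
      _ = _ := by rw [hPα, ← hNexp]; ring

variable {ρ : Measure ℝ} [IsProbabilityMeasure ρ] {ε : ℝ}

theorem norm_integral_transferLaw_le (hε : 0 ≤ ε) (hv : Integrable (fun v : ℝ => |v| ^ ε) ρ)
    {f : ℝ → ℝ} {K p R : ℝ} (hK : 0 ≤ K) (hp : p ≤ ε)
    (hb : ∀ v, |f v| ≤ K * (|R| + 2 + |v|) ^ p) :
    |∫ v, f v ∂ρ| ≤ K * (2 ^ ε * ((|R| + 2) ^ ε + ∫ v, |v| ^ ε ∂ρ)) := by
  have hdom : Integrable (fun v : ℝ => K * (2 ^ ε * ((|R| + 2) ^ ε + |v| ^ ε))) ρ :=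
    (((integrable_const _).add hv).const_mul _).const_mul _
  refine ((Real.norm_eq_abs _).symm.trans_le (norm_integral_le_of_norm_le hdom
    (.of_forall fun v => (hb v).trans (mul_le_mul_of_nonneg_left ?_ hK)))).trans_eq ?_
  · refine (Real.rpow_le_rpow_of_exponent_le (by linarith [abs_nonneg R, abs_nonneg v]) hp).trans ?_
    exact rpow_add_le_two_rpow (by positivity) (abs_nonneg v) hε
  · rw [integral_const_mul, integral_const_mul, integral_add (integrable_const _) hv,
      integral_const, probReal_univ, one_smul]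

theorem stepOp_transferLaw_apply (e : ℝ) (φ : Sph Plane →ᵇ ℝ) (u : Sph Plane) :
    stepOp (transferLaw_ae ρ e) φ u = ∫ v, φ (act (transfer e v) u) ∂ρ := by
  rw [stepOp_apply]
  exact integral_map (φ := transfer e) (f := fun A => φ (act A u))
    (measurable_transfer e).aemeasurable (φ.continuous.measurable.comp
      (measurable_act_pair measurable_id measurable_const)).aestronglyMeasurable

/-- **Stationary means are Hölder in the energy.** -/
theorem exists_stationary_holder (hε : 0 < ε) (hv : Integrable (fun v : ℝ => |v| ^ ε) ρ)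
    {α C r R : ℝ} (hα : 0 < α) (hα1 : α ≤ 1) (hαε : α * (finrank ℝ Plane + 1) ≤ ε) (hC : 0 ≤ C)
    (hr : 0 ≤ r) (hr1 : r < 1) :
    ∃ K : ℝ, 0 ≤ K ∧ ∀ e e' : ℝ, |e| ≤ R → |e'| ≤ R → Contracts (transferLaw ρ e') α C r →
      ∀ (ν ν' : Measure (Sph Plane)), IsProbabilityMeasure ν → IsProbabilityMeasure ν' →
        stepLaw (transferLaw ρ e) ν = ν → stepLaw (transferLaw ρ e') ν' = ν' →
        ∀ (φ : Sph Plane →ᵇ ℝ) (L : ℝ), 0 ≤ L → HolderProj φ L α →
          |(∫ w, φ w ∂ν) - ∫ w, φ w ∂ν'| ≤ L * K * |e - e'| ^ α := by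
  obtain ⟨K₀, hK₀0, hK₀⟩ := exists_step_perturb hα hα1 (R := R)
  set J := 2 ^ ε * ((|R| + 2) ^ ε + ∫ v, |v| ^ ε ∂ρ)
  have hJ : 0 ≤ J := mul_nonneg (by positivity) (add_nonneg (by positivity)
    (integral_nonneg fun v => Real.rpow_nonneg (abs_nonneg v) _))
  refine ⟨C / (1 - r) * (K₀ * J),
    mul_nonneg (div_nonneg hC (by linarith)) (mul_nonneg hK₀0 hJ), ?_⟩
  intro e e' he he' hc ν ν' _ _ hν hν' φ L hL hφ
  set hμ := transferLaw_ae ρ e
  set hμ' := transferLaw_ae ρ e'
  set ψ : ℕ → Sph Plane →ᵇ ℝ := fun j => (stepOp hμ')^[j] φ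
  set Δ := |e - e'| ^ α
  have hΔ : 0 ≤ Δ := Real.rpow_nonneg (abs_nonneg _) _
  have hstep : ∀ j, |(∫ w, ψ j w ∂ν) - ∫ w, ψ (j + 1) w ∂ν| ≤ L * C * r ^ j * (K₀ * J * Δ) := by
    intro j
    have e1 : ∫ w, ψ j w ∂ν = ∫ w, stepOp hμ (ψ j) w ∂ν := by
      conv_lhs => rw [← hν]
      exact integral_stepLaw _ hμ (ψ j) ν
    rw [e1, show ψ (j + 1) = stepOp hμ' (ψ j) from Function.iterate_succ_apply' _ _ _,
      ← integral_sub ((stepOp hμ (ψ j)).integrable ν) ((stepOp hμ' (ψ j)).integrable ν),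
      ← Real.norm_eq_abs]
    refine (norm_integral_le_of_norm_le_const (C := L * C * r ^ j * (K₀ * J * Δ))
      (.of_forall fun u => ?_)).trans_eq (by rw [probReal_univ, mul_one])
    have hi : ∀ t, Integrable (fun v => ψ j (act (transfer t v) u)) ρ := fun t =>
      Integrable.of_bound ((ψ j).continuous.measurable.comp
        (measurable_act_pair (measurable_transfer t) measurable_const)).aestronglyMeasurable ‖ψ j‖
        (.of_forall fun _ => (ψ j).norm_coe_le_norm _)
    rw [stepOp_transferLaw_apply, stepOp_transferLaw_apply, ← integral_sub (hi e) (hi e'),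
      Real.norm_eq_abs]
    refine (norm_integral_transferLaw_le hε.le hv (K := L * C * r ^ j * (K₀ * Δ)) (R := R)
      (p := α * (finrank ℝ Plane + 1)) (by positivity) hαε fun v => ?_).trans_eq (by ring)
    refine (abs_iterate_sub_le hμ' hc hα.le hL hφ j _ _).trans ?_
    calc L * (C * r ^ j * sineDist (act (transfer e v) u) (act (transfer e' v) u) ^ α)
        ≤ L * (C * r ^ j * (K₀ * Δ * (|R| + 2 + |v|) ^ (α * (finrank ℝ Plane + 1)))) :=
          mul_le_mul_of_nonneg_left (mul_le_mul_of_nonneg_left (hK₀ e e' he he' v u).1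
            (by positivity)) hL
      _ = _ := by ring
  have hn : ∀ n : ℕ, |(∫ w, φ w ∂ν) - ∫ w, φ w ∂ν'| ≤
      L * (C / (1 - r) * (K₀ * J)) * Δ + L * C * r ^ n := by
    intro n
    have h1 : |(∫ w, φ w ∂ν) - ∫ w, ψ n w ∂ν| ≤
        ∑ j ∈ Finset.range n, L * C * r ^ j * (K₀ * J * Δ) := by
      have h := Finset.sum_range_sub' (fun j => ∫ w, ψ j w ∂ν) n
      rw [show ∫ w, φ w ∂ν = ∫ w, ψ 0 w ∂ν from rfl, ← h]
      exact (Finset.abs_sum_le_sum_abs _ _).trans (Finset.sum_le_sum fun j _ => hstep j)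
    have h2 : |(∫ w, ψ n w ∂ν) - ∫ w, φ w ∂ν'| ≤ L * C * r ^ n := by
      rw [show (∫ w, ψ n w ∂ν) - ∫ w, φ w ∂ν' = ∫ w, (ψ n w - ∫ w', φ w' ∂ν') ∂ν by
        rw [integral_sub ((ψ n).integrable ν) (integrable_const _), integral_const, probReal_univ,
          one_smul], ← Real.norm_eq_abs]
      exact (norm_integral_le_of_norm_le_const (.of_forall fun w =>
        abs_iterate_sub_integral_le hμ' hc hα.le hC hr hL ν' hν' hφ n w)).trans_eq
        (by rw [probReal_univ, mul_one])
    refine (abs_sub_le _ _ _).trans (add_le_add (h1.trans ?_) h2)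
    rw [← Finset.sum_mul, ← Finset.mul_sum,
      show L * (C / (1 - r) * (K₀ * J)) * Δ = L * C * (1 - r)⁻¹ * (K₀ * J * Δ) by ring]
    exact mul_le_mul_of_nonneg_right (mul_le_mul_of_nonneg_left
      ((tsum_geometric_of_lt_one hr hr1).symm ▸
        (summable_geometric_of_lt_one hr hr1).sum_le_tsum _ fun _ _ => pow_nonneg hr _)
      (mul_nonneg hL hC)) (mul_nonneg (mul_nonneg hK₀0 hJ) hΔ)
  refine ge_of_tendsto (x := atTop)
    (f := fun n : ℕ => L * (C / (1 - r) * (K₀ * J)) * Δ + L * C * r ^ n) ?_ (.of_forall hn)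
  simpa using ((tendsto_pow_atTop_nhds_zero_of_lt_one hr hr1).const_mul (L * C)).const_add
    (L * (C / (1 - r) * (K₀ * J)) * Δ)

end FA.AndersonHolder
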