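import Fermat.Agent.AndersonHolder.Block

/-!
# Uniform contraction

The block which contracts at one energy contracts at all energies nearby, by continuity and the
compactness of the sphere.
-/

set_option autoImplicit false

noncomputable section

namespace FA.AndersonHolder

open MeasureTheory Filter Topology Module Set Metric
open FA.FurstenbergLyapunov FA.FurstenbergKifer FA.GuivarchRaugi FA.LePage FA.AndersonModel
open scoped ENNReal

variable {ρ : Measure ℝ} [IsProbabilityMeasure ρ] {ε : ℝ}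

theorem lintegral_blockLaw_eq {α : ℝ} {e : ℝ} {n : ℕ} {v w : Sph Plane}
    (hi : Integrable (fun x => Real.exp (α * distFactor (transferProd e n x) v w))
      (Measure.infinitePi fun _ : ℕ => ρ)) :
    ∫⁻ A, ENNReal.ofReal (Real.exp (α * distFactor A v w)) ∂(blockLaw (transferLaw ρ e) n) =
      ENNReal.ofReal (factorMoment ρ α n e (v, w)) := by
  have hm : Measurable fun A => ENNReal.ofReal (Real.exp (α * distFactor A v w)) :=
    ENNReal.measurable_ofReal.comp
      (Real.measurable_exp.comp ((measurable_distFactor v w).const_mul α))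
  rw [blockLaw_transferLaw, lintegral_map hm (measurable_transferProd e n), factorMoment,
    ofReal_integral_eq_lintegral_ofReal hi (.of_forall fun x => (Real.exp_pos _).le)]

/-- **One rate of contraction near every energy.** -/
theorem exists_uniform_contraction (hρ : ∀ a, ρ ≠ Measure.dirac a) (hε : 0 < ε)
    (hv : Integrable (fun v : ℝ => |v| ^ ε) ρ) (e₀ : ℝ) {α₀ : ℝ} (hα₀ : 0 < α₀) :
    ∃ δ α C r : ℝ, 0 < δ ∧ 0 < α ∧ α ≤ α₀ ∧ 0 ≤ C ∧ 0 < r ∧ r < 1 ∧
      ∀ e ∈ ball e₀ δ, Contracts (transferLaw ρ e) α C r := by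
  set μ₀ := transferLaw ρ e₀
  have hd : 2 ≤ finrank ℝ Plane := (finrank_euclideanSpace_fin (n := 2)).ge
  have hexp₀ : ExpMoment μ₀ ε := transferLaw_expMoment hε.le hv
  have hdet₀ := transferLaw_ae ρ e₀
  obtain ⟨n₀, hn₀, hneg⟩ := exists_negative_block hd hdet₀ (transferLaw_irreducible hρ)
    (transferLaw_proximal hρ) (integrable_log_norm hdet₀ hε hexp₀)
  obtain ⟨a, ha, hX⟩ := exists_abs_distFactor_le (E := Plane) hd
  set b : ℝ := 2 + 2 * ((finrank ℝ Plane : ℕ) : ℝ) with hbdef
  have hb : 0 ≤ b := by positivity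
  obtain ⟨α, r₀, hα, hαle, hr₀, hr₁, hmom⟩ := exists_exp_moment_lt_one
    (blockLaw_unitDet μ₀ hdet₀ n₀) hε (expMoment_blockLaw hdet₀ hε.le hexp₀ n₀)
    (ι := Sph Plane × Sph Plane) (fun i A => distFactor A i.1 i.2)
    (fun i => measurable_distFactor i.1 i.2) ha hb (fun i => hX i.1 i.2)
    (fun i => hneg i.1 i.2) (α₀ := min α₀ (ε / (b + 1))) (lt_min hα₀ (by positivity))
  have hαb : α * b ≤ ε := by
    have h := hαle.trans (min_le_right _ _)
    rw [le_div_iff₀ (by positivity)] at h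
    nlinarith
  have hint := fun e n v w => integrable_exp_distFactor hε.le hv hα.le hb hαb hX e n v w
  set r₁ := (1 + r₀) / 2 with hr₁def
  have hr₁0 : 0 < r₁ := by positivity
  have hr₁1 : r₁ < 1 := by linarith
  have hF₀ : ∀ q, factorMoment ρ α n₀ e₀ q ≤ r₀ := fun q =>
    (ENNReal.ofReal_le_ofReal_iff hr₀.le).1
      ((lintegral_blockLaw_eq (hint e₀ n₀ q.1 q.2)).symm.trans_le (hmom q))
  have hunif : TendstoUniformly (factorMoment ρ α n₀) (factorMoment ρ α n₀ e₀) (𝓝 e₀) :=
    Continuous.tendstoUniformly _ (continuous_factorMoment hε.le hv hα.le hb hαb hX n₀) e₀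
  obtain ⟨δ, hδ, hball⟩ := Metric.eventually_nhds_iff_ball.1
    (Metric.tendstoUniformly_iff.1 hunif ((1 - r₀) / 2) (by linarith))
  set R := |e₀| + δ
  set M : ℕ → ℝ := fun j =>
    Real.exp (α * a) * ∫ x, blockBound R j x ^ ε ∂(Measure.infinitePi fun _ : ℕ => ρ)
  have hM : ∀ j, 0 ≤ M j := fun j => mul_nonneg (Real.exp_pos _).le
    (integral_nonneg fun x => Real.rpow_nonneg (blockBound_pos R j x).le _)
  set r := r₁ ^ ((n₀ : ℝ)⁻¹)
  have hr : 0 < r := Real.rpow_pos_of_pos hr₁0 _
  have hrn : r ^ n₀ = r₁ := Real.rpow_inv_natCast_pow hr₁0.le hn₀.ne'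
  have hr1 : r < 1 := Real.rpow_lt_one hr₁0.le hr₁1 (by positivity)
  refine ⟨δ, α, (∑ j ∈ Finset.range n₀, M j) / r₁, r, hδ, hα, hαle.trans (min_le_left _ _),
    div_nonneg (Finset.sum_nonneg fun j _ => hM j) hr₁0.le, hr, hr1, fun e he n v w => ?_⟩
  have heR : |e| ≤ R := by
    have h1 : |e - e₀| < δ := by simpa [Metric.mem_ball, Real.dist_eq] using he
    simp only [R]
    linarith [abs_sub_abs_le_abs_sub e e₀]
  set μ := transferLaw ρ e
  have hμ : ∀ᵐ A ∂μ, A ∈ unitDet Plane := transferLaw_ae ρ e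
  have hfirst : ∀ (j : ℕ) (v w : Sph Plane), factorMoment ρ α j e (v, w) ≤ M j := by
    intro j v w
    simp only [M]
    rw [← integral_const_mul]
    exact integral_mono (hint e j v w) ((integrable_blockBound_rpow hε.le hv R j).const_mul _)
      fun x => exp_distFactor_le hα.le hb hαb hX heR j x v w
  have hblock₁ : ∀ v w : Sph Plane, factorMoment ρ α n₀ e (v, w) ≤ r₁ := fun v w => by
    have h1 := abs_lt.1 ((Real.dist_eq _ _).symm.trans_lt (hball e he (v, w)))
    linarith [hF₀ (v, w)]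
  have hblock : ∀ (q j : ℕ) (v w : Sph Plane), meanDist μ α (n₀ * q + j) v w ≤
      ENNReal.ofReal (r₁ ^ q * M j) * ENNReal.ofReal (sineDist v w ^ α) := by
    intro q j
    induction q with
    | zero =>
      intro v w
      rw [mul_zero, zero_add, pow_zero, one_mul, mul_comm (ENNReal.ofReal (M j))]
      refine (meanDist_le_factor hd hμ hα.le j v w).trans (mul_le_mul_right ?_ _)
      rw [lintegral_blockLaw_eq (hint e j v w)]
      exact ENNReal.ofReal_le_ofReal (hfirst j v w)
    | succ q ih =>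
      intro v w
      rw [show n₀ * (q + 1) + j = n₀ + (n₀ * q + j) by ring, meanDist_add hμ]
      refine (lintegral_mono fun A => ih (act A v) (act A w)).trans ?_
      rw [lintegral_const_mul' _ _ ENNReal.ofReal_ne_top, ← meanDist_eq,
        show r₁ ^ (q + 1) * M j = r₁ ^ q * M j * r₁ by ring,
        ENNReal.ofReal_mul (mul_nonneg (pow_nonneg hr₁0.le q) (hM j)), mul_assoc]
      refine mul_le_mul_right ((meanDist_le_factor hd hμ hα.le n₀ v w).trans ?_) _
      rw [mul_comm (ENNReal.ofReal r₁), lintegral_blockLaw_eq (hint e n₀ v w)]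
      exact mul_le_mul_right (ENNReal.ofReal_le_ofReal (hblock₁ v w)) _
  rw [integral_eq_lintegral_of_nonneg_ae
    (.of_forall fun x => Real.rpow_nonneg (sineDist_nonneg _ _) _)
    (measurable_distPow (measurable_randProd n) measurable_const measurable_const
      α).aestronglyMeasurable]
  have hS : 0 ≤ (∑ j ∈ Finset.range n₀, M j) := Finset.sum_nonneg fun j _ => hM j
  have hδ' : 0 ≤ sineDist v w ^ α := Real.rpow_nonneg (sineDist_nonneg v w) _
  refine ENNReal.toReal_le_of_le_ofReal (by positivity) ?_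
  have h := hblock (n / n₀) (n % n₀) v w
  rw [Nat.div_add_mod, ← ENNReal.ofReal_mul (mul_nonneg (pow_nonneg hr₁0.le _) (hM _))] at h
  refine h.trans (ENNReal.ofReal_le_ofReal (mul_le_mul_of_nonneg_right ?_ hδ'))
  have hMj : M (n % n₀) ≤ ∑ j ∈ Finset.range n₀, M j :=
    Finset.single_le_sum (fun j _ => hM j) (Finset.mem_range.2 (Nat.mod_lt _ hn₀))
  have hq : r₁ ^ (n / n₀) ≤ r ^ n / r₁ := by
    rw [le_div_iff₀ hr₁0]
    calc r₁ ^ (n / n₀) * r₁ ≤ r₁ ^ (n / n₀) * r ^ (n % n₀) :=
          mul_le_mul_of_nonneg_left (hrn ▸ pow_le_pow_of_le_one hr.le hr1.le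
            (Nat.mod_lt _ hn₀).le) (pow_nonneg hr₁0.le _)
      _ = r ^ n := by rw [← hrn, ← pow_mul, ← pow_add, Nat.div_add_mod]
  calc r₁ ^ (n / n₀) * M (n % n₀) ≤ r ^ n / r₁ * ∑ j ∈ Finset.range n₀, M j :=
        mul_le_mul hq hMj (hM _) (div_nonneg (pow_nonneg hr.le n) hr₁0.le)
    _ = _ := by ring

end FA.AndersonHolder
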